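import Mathlib

/-!
# S43 / MPD / Alg : the pure algebra of "Mazur's principle with denominators" (report 417)

* `principle`  : (1) of the report.  If `φ - ε = y₁ N` on `J[n]` (`q - 1 = c n`, `c` invertible on `J`), then the toric
  part `K` is a Hecke direct summand of `J`; if moreover the socle of `J` lies in `K`, then `K = J`.
* `tower_theta`, `tower_key` : (2)(d) of the report.  The relations on `Jχ` in the tower give `φ - ε = - e₁ (σ - 1)` on `Jχ[δ - 1]`.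
-/

set_option autoImplicit false

namespace Fermat.Agent.S43.MPD

section Principle

variable {J : Type*} [AddCommGroup J]

/-- **(1) PRINCIPLE.** -/
theorem principle (n : ℕ) (c c' ε q : ℤ) (hq : q - 1 = c * n) (hε : ε * ε = 1)
    (hc : ∀ x : J, (c * c') • x = x)
    (hdiv : ∀ x : J, ∃ y, n • y = x)
    (K : AddSubgroup J) (hKdiv : ∀ x ∈ K, ∃ y ∈ K, n • y = x)
    (φ N y1 : J →+ J)
    (hφK : ∀ x, φ x - ε • x ∈ K) (hNK : ∀ x, N x ∈ K) (hN0 : ∀ x ∈ K, N x = 0)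
    (hφ : ∀ x ∈ K, φ x = (ε * q) • x) (hy1 : ∀ x ∈ K, y1 x ∈ K)
    (key : ∀ x, n • x = 0 → φ x - ε • x = y1 (N x))
    {ι : Type*} (t : ι → J →+ J)
    (htφ : ∀ i x, t i (φ x) = φ (t i x)) (htN : ∀ i x, t i (N x) = N (t i x))
    (hty : ∀ i x, t i (y1 x) = y1 (t i x))
    (S : AddSubgroup J)
    (hsoc : ∀ J' : AddSubgroup J, (∀ i, ∀ x ∈ J', t i x ∈ J') → J' ≠ ⊥ →
      ∃ x ∈ J', x ≠ 0 ∧ x ∈ S)
    (hSK : S ≤ K) : K = ⊤ := by
  obtain ⟨D, hD⟩ : ∃ D : J →+ J, ∀ x, D x = φ x - ε • x - y1 (N x) :=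
    ⟨φ - ε • AddMonoidHom.id J - y1.comp N, fun x => rfl⟩
  have hDK : ∀ x, D x ∈ K := fun x => by
    rw [hD]
    exact K.sub_mem (hφK x) (hy1 _ (hNK x))
  have hDn : ∀ x, n • x = 0 → D x = 0 := fun x hx => by rw [hD, key x hx, sub_self]
  have hDonK : ∀ x ∈ K, D x = (ε * c) • (n • x) := by
    intro x hx
    rw [hD, hφ x hx, hN0 x hx, map_zero, sub_zero, ← sub_smul, ← natCast_zsmul, smul_smul]
    congr 1
    linear_combination ε * hq
  have hDt : ∀ i x, t i (D x) = D (t i x) := by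
    intro i x
    rw [hD, hD, map_sub, map_sub, map_zsmul, htφ, hty, htN]
  have hJ'K : ∀ y, D y = 0 → n • y ∈ K → n • y = 0 := by
    intro y hy hyK
    obtain ⟨y', hy'K, hy'⟩ := hKdiv _ hyK
    have h1 : D (y - y') = 0 := hDn _ (by rw [smul_sub, hy', sub_self])
    have h2 : D y' = 0 := by
      rw [map_sub, hy, zero_sub, neg_eq_zero] at h1
      exact h1
    rw [hDonK y' hy'K, hy'] at h2
    have h3 : (c' * ε) • ((ε * c) • (n • y)) = n • y := by
      rw [smul_smul]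
      have : c' * ε * (ε * c) = c * c' := by linear_combination (c * c') * hε
      rw [this, hc]
    rw [← h3, h2, smul_zero]
  let J' : AddSubgroup J := (D.ker).map (nsmulAddMonoidHom n)
  have hJ'mem : ∀ x, x ∈ J' ↔ ∃ y, D y = 0 ∧ n • y = x := by
    intro x
    constructor
    · rintro ⟨y, hy, rfl⟩
      exact ⟨y, hy, rfl⟩
    · rintro ⟨y, hy, rfl⟩
      exact ⟨y, hy, rfl⟩
  have hJ'bot : J' = ⊥ := by
    by_contra hne
    obtain ⟨x, hx, hx0, hxS⟩ := hsoc J' (by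
      intro i x hx
      obtain ⟨y, hy, rfl⟩ := (hJ'mem x).1 hx
      exact (hJ'mem _).2 ⟨t i y, by rw [← hDt, hy, map_zero], by rw [map_nsmul]⟩) hne
    obtain ⟨y, hy, rfl⟩ := (hJ'mem x).1 hx
    exact hx0 (hJ'K y hy (hSK hxS))
  rw [eq_top_iff]
  intro x _
  obtain ⟨y, rfl⟩ := hdiv x
  have hwK : (c' * ε) • D y ∈ K := K.zsmul_mem (hDK y) _
  obtain ⟨y'', hy''K, hy''⟩ := hKdiv _ hwK
  have h1 : D y'' = D y := by
    rw [hDonK y'' hy''K, hy'', smul_smul]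
    have : ε * c * (c' * ε) = c * c' := by linear_combination (c * c') * hε
    rw [this, hc]
  have h2 : n • (y - y'') ∈ J' := (hJ'mem _).2 ⟨y - y'', by rw [map_sub, h1, sub_self], rfl⟩
  rw [hJ'bot, AddSubgroup.mem_bot, smul_sub, hy'', sub_eq_zero] at h2
  rw [h2]
  exact hwK

end Principle

section Tower

variable {R H : Type*} [CommRing R] [AddCommGroup H] [Module R H]

/-- `Nm = ∑_{i<n} δ^i`. -/
def Nm (δ : R) (n : ℕ) : R := ∑ i ∈ Finset.range n, δ ^ i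

/-- `κ = -∑_{i<n} ∑_{j<i} δ^j`. -/
def kap (δ : R) (n : ℕ) : R := -∑ i ∈ Finset.range n, ∑ j ∈ Finset.range i, δ ^ j

theorem natCast_eq_Nm_add (δ : R) (n : ℕ) : (n : R) = Nm δ n + kap δ n * (δ - 1) := by
  unfold Nm kap
  rw [neg_mul, Finset.sum_mul]
  simp only [geom_sum_mul]
  rw [Finset.sum_sub_distrib]
  simp

theorem Nm_smul_of_fixed (δ : R) (n : ℕ) {v : H} (hv : δ • v = v) : Nm δ n • v = (n : R) • v := by
  have h : ∀ i : ℕ, δ ^ i • v = v := by
    intro i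
    induction i with
    | zero => rw [pow_zero, one_smul]
    | succ i ih => rw [pow_succ, mul_smul, hv, ih]
  rw [Nm, Finset.sum_smul, Finset.sum_congr rfl (fun i _ => h i), Finset.sum_const,
    Finset.card_range, Nat.cast_smul_eq_nsmul]

theorem kap_smul_of_fixed (δ : R) {n : ℕ} (hn : Odd n) {v : H} (hv : δ • v = v)
    (hnv : (n : R) • v = 0) : kap δ n • v = 0 := by
  have h : ∀ i : ℕ, δ ^ i • v = v := by
    intro i
    induction i with
    | zero => rw [pow_zero, one_smul]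
    | succ i ih => rw [pow_succ, mul_smul, hv, ih]
  have h1 : ∀ i : ℕ, (∑ j ∈ Finset.range i, δ ^ j) • v = i • v := by
    intro i
    rw [Finset.sum_smul, Finset.sum_congr rfl (fun j _ => h j), Finset.sum_const,
      Finset.card_range]
  obtain ⟨m, rfl⟩ := hn
  have h2 : ∑ i ∈ Finset.range (2 * m + 1), i = m * (2 * m + 1) := by
    have := Finset.sum_range_id_mul_two (2 * m + 1)
    have h3 : 2 * m + 1 - 1 = 2 * m := by omega
    rw [h3] at this
    nlinarith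
  rw [kap, neg_smul, Finset.sum_smul, Finset.sum_congr rfl (fun i _ => h1 i), ← Finset.sum_smul,
    h2, mul_smul, ← Nat.cast_smul_eq_nsmul R (2 * m + 1) v, hnv, smul_zero, neg_zero]

/-- **(2)(d)**: `Θ = Ψ + (e₁ - ε c κ) P` vanishes on `Jχ`. -/
theorem tower_theta (δ U Ui s : R) (hU : U * Ui = 1) (ε q c : ℤ) (n : ℕ) (hq : q - 1 = c * n)
    (hε : ε * ε = 1) (hUs : U = (ε : R) + (δ - 1) * s) (σ φ : H →ₗ[R] H)
    (C : Submodule R H) (hCσ : ∀ z ∈ C, σ z ∈ C) (hCφ : ∀ z ∈ C, φ z ∈ C)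
    (hNm : ∀ z ∈ C, Nm δ n • z = 0) (hdiv : ∀ z ∈ C, ∃ w ∈ C, (n : R) • w = z)
    (h1 : ∀ z ∈ C, σ (φ z - U • z) = δ • (φ z - U • z))
    (h2 : ∀ z ∈ C, φ (σ z - z) = ((q : R) * Ui) • (σ z - z))
    (h3 : ∀ z ∈ C, φ (σ z) = σ (φ z)) :
    ∀ z ∈ C, (φ z - U • z) +
      (s * (1 + (q : R) * ε * Ui) - (ε : R) * c * kap δ n) • (σ z - z) = 0 := by
  have hq' : (q : R) - 1 = (c : R) * (n : R) := by exact_mod_cast congrArg (Int.cast : ℤ → R) hq
  have hε' : (ε : R) * ε = 1 := by exact_mod_cast congrArg (Int.cast : ℤ → R) hε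
  have hxe1 : (δ - 1) * (s * (1 + (q : R) * ε * Ui)) = U - (q : R) * Ui + (ε : R) * ((q : R) - 1) := by
    have h4 : (δ - 1) * s = U - (ε : R) := by rw [hUs]; ring
    calc (δ - 1) * (s * (1 + (q : R) * ε * Ui)) = ((δ - 1) * s) * (1 + (q : R) * ε * Ui) := by ring
      _ = (U - (ε : R)) * (1 + (q : R) * ε * Ui) := by rw [h4]
      _ = U - (q : R) * Ui + (ε : R) * ((q : R) - 1) := by
          linear_combination ((q : R) * ε) * hU - ((q : R) * Ui) * hε'
  -- `x Θ = 0`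
  have hxΘ : ∀ z ∈ C, (δ - 1) • ((φ z - U • z) +
      (s * (1 + (q : R) * ε * Ui) - (ε : R) * c * kap δ n) • (σ z - z)) = 0 := by
    intro z hz
    have hv : σ z - z ∈ C := C.sub_mem (hCσ z hz) hz
    have e_q : ((c : R) * kap δ n * (δ - 1)) • (σ z - z) = ((q : R) - 1) • (σ z - z) := by
      have h5 : (q : R) - 1 = (c : R) * Nm δ n + (c : R) * kap δ n * (δ - 1) := by
        rw [hq', natCast_eq_Nm_add δ n]
        ring
      rw [h5, add_smul, mul_smul (c : R) (Nm δ n), hNm _ hv, smul_zero, zero_add]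
    have e1 := h1 z hz
    have e2 := h2 z hz
    rw [map_sub, map_smul] at e1
    rw [map_sub, h3 z hz] at e2
    calc (δ - 1) • ((φ z - U • z) +
          (s * (1 + (q : R) * ε * Ui) - (ε : R) * c * kap δ n) • (σ z - z))
        = (δ - 1) • φ z - ((δ - 1) * U) • z + ((δ - 1) * (s * (1 + (q : R) * ε * Ui))) • (σ z - z)
            - (ε : R) • (((c : R) * kap δ n * (δ - 1)) • (σ z - z)) := by module
      _ = (δ - 1) • φ z - ((δ - 1) * U) • z + (U - (q : R) * Ui + (ε : R) * ((q : R) - 1)) • (σ z - z)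
            - (ε : R) • (((q : R) - 1) • (σ z - z)) := by rw [hxe1, e_q]
      _ = (σ (φ z) - φ z - ((q : R) * Ui) • (σ z - z))
            - (σ (φ z) - U • σ z - δ • (φ z - U • z)) := by module
      _ = 0 := by rw [e2, e1, sub_self, sub_self, sub_self]
  -- `n Θ = 0`
  have hΘC : ∀ z ∈ C, (φ z - U • z) +
      (s * (1 + (q : R) * ε * Ui) - (ε : R) * c * kap δ n) • (σ z - z) ∈ C := by
    intro z hz
    exact C.add_mem (C.sub_mem (hCφ z hz) (C.smul_mem _ hz))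
      (C.smul_mem _ (C.sub_mem (hCσ z hz) hz))
  have hnΘ : ∀ z ∈ C, (n : R) • ((φ z - U • z) +
      (s * (1 + (q : R) * ε * Ui) - (ε : R) * c * kap δ n) • (σ z - z)) = 0 := by
    intro z hz
    have h6 := hxΘ z hz
    rw [sub_smul, one_smul, sub_eq_zero] at h6
    rw [← Nm_smul_of_fixed δ n h6]
    exact hNm _ (hΘC z hz)
  intro z hz
  obtain ⟨w, hw, rfl⟩ := hdiv z hz
  have h7 := hnΘ w hw
  rw [← h7, map_smul, map_smul]
  module

/-- **KEY**: `φ - ε = - e₁ (σ - 1)` on `Jχ[δ - 1]`. -/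
theorem tower_key (δ U Ui s : R) (hU : U * Ui = 1) (ε q c : ℤ) (n : ℕ) (hn : Odd n)
    (hq : q - 1 = c * n)
    (hε : ε * ε = 1) (hUs : U = (ε : R) + (δ - 1) * s) (σ φ : H →ₗ[R] H)
    (C : Submodule R H) (hCσ : ∀ z ∈ C, σ z ∈ C) (hCφ : ∀ z ∈ C, φ z ∈ C)
    (hNm : ∀ z ∈ C, Nm δ n • z = 0) (hdiv : ∀ z ∈ C, ∃ w ∈ C, (n : R) • w = z)
    (h1 : ∀ z ∈ C, σ (φ z - U • z) = δ • (φ z - U • z))
    (h2 : ∀ z ∈ C, φ (σ z - z) = ((q : R) * Ui) • (σ z - z))
    (h3 : ∀ z ∈ C, φ (σ z) = σ (φ z)) {z : H} (hz : z ∈ C) (hδ : δ • z = z) :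
    φ z - ε • z = -((s * (1 + (q : R) * ε * Ui)) • (σ z - z)) := by
  have h := tower_theta δ U Ui s hU ε q c n hq hε hUs σ φ C hCσ hCφ hNm hdiv h1 h2 h3 z hz
  have hv : σ z - z ∈ C := C.sub_mem (hCσ z hz) hz
  have hδv : δ • (σ z - z) = σ z - z := by rw [smul_sub, ← map_smul, hδ]
  have hnv : (n : R) • (σ z - z) = 0 := by
    rw [← Nm_smul_of_fixed δ n hδv]
    exact hNm _ hv
  have hκ := kap_smul_of_fixed δ hn hδv hnv
  have hUz : U • z = ε • z := by
    rw [hUs, add_smul, mul_comm, mul_smul, sub_smul, one_smul, hδ, sub_self, smul_zero, add_zero,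
      Int.cast_smul_eq_zsmul]
  rw [sub_smul, mul_smul ((ε : R) * c), hκ, smul_zero, sub_zero, hUz] at h
  exact eq_neg_of_add_eq_zero_left h

end Tower

end Fermat.Agent.S43.MPD
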