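import Mathlib

/-!
# S43 / MPD / Loc : (independent second version, includes step (2b)) the pure algebra of "Mazur's principle with denominators" (report 417)

* `principle` : step (1) of report 417 (a `T`-linear retraction onto the toric part).
* `key`       : steps (2b), (2d) of report 417 (the relation `φ - ε = - e₁ (σ - 1)` on `JJ[p^k]`).
-/

set_option autoImplicit false

namespace Fermat.Agent.S43.MPD.Loc

/-! ## Step (1): the principle -/

section Principle

variable {T J : Type*} [CommRing T] [AddCommGroup J] [Module T J]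

/-- **PRINCIPLE.**  `J = JJ`, `K = Ktor`, `Nn = σ - 1`, `F = φ - ε`, `m = p^k`, `c = ε (q-1)/p^k`.
If `F = y₁ ∘ Nn` on `J[m]` for a `T`-linear `y₁ : K → K`, then `J = K`. -/
theorem principle (K : Submodule T J) (Nn F : J →ₗ[T] J) (y₁ : K →ₗ[T] K) (m : ℕ) (c : ℤ)
    (𝔪 : Ideal T)
    (hNK : ∀ z, Nn z ∈ K) (hN0 : ∀ z ∈ K, Nn z = 0) (hFK : ∀ z, F z ∈ K)
    (hF : ∀ z ∈ K, F z = c • (m • z))
    (hdivJ : ∀ z : J, ∃ w, m • w = z) (hdivK : ∀ z ∈ K, ∃ w ∈ K, m • w = z)
    (hcinj : ∀ z ∈ K, c • z = 0 → z = 0) (hcsurj : ∀ z ∈ K, ∃ w ∈ K, c • w = z)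
    (hkey : ∀ z, m • z = 0 → F z = (y₁ ⟨Nn z, hNK z⟩ : J))
    (hI : ∀ z, Nn z = 0 → z ∈ K)
    (hunr : ∀ z, (∀ t ∈ 𝔪, t • z = 0) → Nn z = 0)
    (hsoc : ∀ N : Submodule T J, N ≠ ⊥ → ∃ z ∈ N, z ≠ 0 ∧ ∀ t ∈ 𝔪, t • z = 0) :
    ∀ z, z ∈ K := by
  -- the map `w ↦ F w - y₁ (Nn w)`
  let Y : J →ₗ[T] J := K.subtype ∘ₗ y₁ ∘ₗ (Nn.codRestrict K hNK)
  have hY : ∀ w, Y w = (y₁ ⟨Nn w, hNK w⟩ : J) := fun w => rfl
  have hYK : ∀ w, Y w ∈ K := fun w => (y₁ _).2
  have hY0 : ∀ w ∈ K, Y w = 0 := by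
    intro w hw
    rw [hY]
    have : (⟨Nn w, hNK w⟩ : K) = 0 := Subtype.ext (hN0 w hw)
    rw [this, map_zero]
    rfl
  let J' : Submodule T J :=
    { carrier := {z | ∃ w, m • w = z ∧ F w = Y w}
      add_mem' := by
        rintro _ _ ⟨w, rfl, hw⟩ ⟨w', rfl, hw'⟩
        exact ⟨w + w', smul_add _ _ _, by rw [map_add, map_add, hw, hw']⟩
      zero_mem' := ⟨0, smul_zero _, by rw [map_zero, map_zero]⟩
      smul_mem' := by
        rintro t _ ⟨w, rfl, hw⟩
        exact ⟨t • w, by rw [smul_comm], by rw [map_smul, map_smul, hw]⟩ }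
  have hJ'K : ∀ z ∈ J', z ∈ K → z = 0 := by
    rintro z ⟨w, hwz, hw⟩ hzK
    obtain ⟨w0, hw0K, hw0⟩ := hdivK z hzK
    have h1 : m • (w - w0) = 0 := by rw [smul_sub, hwz, hw0, sub_self]
    have h2 := hkey _ h1
    rw [← hY, map_sub, map_sub, hw, hY0 w0 hw0K, sub_zero] at h2
    have h3 : F w0 = 0 := by
      have := sub_eq_self.1 h2
      exact this
    rw [hF w0 hw0K, hw0] at h3
    exact hcinj z hzK h3
  have hJ'bot : J' = ⊥ := by
    by_contra hne
    obtain ⟨z, hz, hz0, hzm⟩ := hsoc J' hne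
    exact hz0 (hJ'K z hz (hI z (hunr z hzm)))
  intro z
  obtain ⟨w, hw⟩ := hdivJ z
  have htK : F w - Y w ∈ K := K.sub_mem (hFK w) (hYK w)
  obtain ⟨k, hkK, hk⟩ := hcsurj _ htK
  obtain ⟨wk, hwkK, hwk⟩ := hdivK k hkK
  have hmem : z - k ∈ J' := by
    refine ⟨w - wk, by rw [smul_sub, hw, hwk], ?_⟩
    rw [map_sub, map_sub, hY0 wk hwkK, sub_zero, hF wk hwkK, hwk, hk]
    abel
  rw [hJ'bot, Submodule.mem_bot, sub_eq_zero] at hmem
  rw [hmem]
  exact hkK

end Principle

/-! ## Steps (2b), (2d): the key relation -/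

section Key

variable {R H : Type*} [CommRing R] [AddCommGroup H] [Module R H]

/-- `1 + δ + ... + δ^(n-1)`. -/
def gs (δ : R) (n : ℕ) : R := ∑ i ∈ Finset.range n, δ ^ i

theorem gs_succ (δ : R) (n : ℕ) : gs δ (n + 1) = 1 + δ * gs δ n := by
  unfold gs
  rw [Finset.sum_range_succ', Finset.mul_sum, pow_zero, add_comm]
  congr 1
  exact Finset.sum_congr rfl fun i _ => by rw [pow_succ']

theorem gs_zero (δ : R) : gs δ 0 = 0 := by simp [gs]

theorem pow_eq_one_add (δ : R) (n : ℕ) : δ ^ n = 1 + (δ - 1) * gs δ n := by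
  induction n with
  | zero => simp [gs_zero]
  | succ n ih =>
    rw [gs_succ, pow_succ', ih]
    ring

/-- `κ = - ∑_{i<m} (1 + ... + δ^(i-1))`. -/
def kap (δ : R) (m : ℕ) : R := - ∑ i ∈ Finset.range m, gs δ i

theorem natCast_eq (δ : R) (m : ℕ) : (m : R) = gs δ m + kap δ m * (δ - 1) := by
  have h : gs δ m = ∑ i ∈ Finset.range m, (1 + (δ - 1) * gs δ i) :=
    Finset.sum_congr rfl fun i _ => pow_eq_one_add δ i
  rw [h, Finset.sum_add_distrib, ← Finset.mul_sum, kap]
  simp only [Finset.sum_const, Finset.card_range, nsmul_eq_mul, mul_one]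
  ring

theorem gs_smul_of_fixed {δ : R} {w : H} (hw : δ • w = w) (n : ℕ) : gs δ n • w = n • w := by
  induction n with
  | zero => simp [gs_zero]
  | succ n ih =>
    rw [gs_succ, add_smul, one_smul, mul_smul, ih, smul_comm, hw, succ_nsmul, add_comm]

theorem gs_mul_add_one {δ : R} {m : ℕ} (hδ : δ ^ m = 1) (c : ℕ) :
    gs δ (c * m + 1) = c * gs δ m + 1 := by
  have h : ∀ c : ℕ, gs δ (c * m) = c * gs δ m := by
    intro c
    induction c with
    | zero => simp [gs_zero]
    | succ c ih =>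
      have : gs δ ((c + 1) * m) = gs δ (c * m) + δ ^ (c * m) * gs δ m := by
        unfold gs
        rw [add_mul, one_mul, Finset.sum_range_add, Finset.mul_sum]
        congr 1
        exact Finset.sum_congr rfl fun i _ => by rw [pow_add]
      rw [this, ih, mul_comm c m, pow_mul, hδ, one_pow]
      push_cast
      ring
  unfold gs at h ⊢
  rw [Finset.sum_range_succ, h, mul_comm c m, pow_mul, hδ, one_pow]

/-- the local data at `q` on `JH` (report 417, (2a), (2b)). -/
structure LocData (σ φ : H →ₗ[R] H) (δ U Ui : R) (K1 K2 : Submodule R H) (m q : ℕ) : Prop where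
  δ_pow : δ ^ m = 1
  U_inv : U * Ui = 1
  K1σ : ∀ z ∈ K1, σ z ∈ K1
  K1φ : ∀ z ∈ K1, φ z ∈ K1
  b1 : ∀ z : H, σ z - z ∈ K1
  b2 : ∀ z : H, σ z - δ • z ∈ K2
  b3 : ∀ z : H, φ z - U • z ∈ K1
  b4 : ∀ z : H, gs δ m • z = 0 → φ z - ((q : R) * Ui) • z ∈ K2
  b5 : ∀ z ∈ K1, z ∈ K2 → δ • z = z
  div : ∀ z : H, gs δ m • z = 0 → ∃ w : H, gs δ m • w = 0 ∧ m • w = z
  comm : ∀ z : H, φ (σ z) = (σ ^ q) (φ z)

variable {σ φ : H →ₗ[R] H} {δ U Ui : R} {K1 K2 : Submodule R H} {m q : ℕ}

/-- a linear map sending `Jχ` into `K1 ∩ K2` vanishes on `Jχ`. -/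
theorem LocData.eq_zero (D : LocData σ φ δ U Ui K1 K2 m q) (g : H →ₗ[R] H)
    (h1 : ∀ z, gs δ m • z = 0 → g z ∈ K1) (h2 : ∀ z, gs δ m • z = 0 → g z ∈ K2)
    (z : H) (hz : gs δ m • z = 0) : g z = 0 := by
  obtain ⟨w, hw, rfl⟩ := D.div z hz
  have h3 : δ • g w = g w := D.b5 _ (h1 w hw) (h2 w hw)
  have h4 : gs δ m • g w = 0 := by rw [← map_smul, hw, map_zero]
  rw [map_nsmul, ← gs_smul_of_fixed h3, h4]

/-- a linear map sending `Jχ` into `Jχ[x]` vanishes on `Jχ`. -/
theorem LocData.eq_zero' (D : LocData σ φ δ U Ui K1 K2 m q) (g : H →ₗ[R] H)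
    (h1 : ∀ z, gs δ m • z = 0 → (δ - 1) • g z = 0)
    (z : H) (hz : gs δ m • z = 0) : g z = 0 := by
  obtain ⟨w, hw, rfl⟩ := D.div z hz
  have h3 : δ • g w = g w := by
    have := h1 w hw
    rwa [sub_smul, one_smul, sub_eq_zero] at this
  have h4 : gs δ m • g w = 0 := by rw [← map_smul, hw, map_zero]
  rw [map_nsmul, ← gs_smul_of_fixed h3, h4]

theorem LocData.step1 (D : LocData σ φ δ U Ui K1 K2 m q) (z : H) (hz : gs δ m • z = 0) :
    σ (σ z - z) = δ • (σ z - z) := by
  have := D.eq_zero ((σ - δ • LinearMap.id) ∘ₗ (σ - LinearMap.id))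
    (fun z _ => by
      simp only [LinearMap.comp_apply, LinearMap.sub_apply, LinearMap.id_apply,
        LinearMap.smul_apply]
      exact K1.sub_mem (D.K1σ _ (D.b1 z)) (K1.smul_mem _ (D.b1 z)))
    (fun z _ => by
      simp only [LinearMap.comp_apply, LinearMap.sub_apply, LinearMap.id_apply,
        LinearMap.smul_apply]
      exact D.b2 _) z hz
  simp only [LinearMap.comp_apply, LinearMap.sub_apply, LinearMap.id_apply,
    LinearMap.smul_apply] at this
  exact sub_eq_zero.1 this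

theorem LocData.step2 (D : LocData σ φ δ U Ui K1 K2 m q) (z : H) (hz : gs δ m • z = 0) :
    σ (φ z - U • z) = δ • (φ z - U • z) := by
  have := D.eq_zero ((σ - δ • LinearMap.id) ∘ₗ (φ - U • LinearMap.id))
    (fun z _ => by
      simp only [LinearMap.comp_apply, LinearMap.sub_apply, LinearMap.id_apply,
        LinearMap.smul_apply]
      exact K1.sub_mem (D.K1σ _ (D.b3 z)) (K1.smul_mem _ (D.b3 z)))
    (fun z _ => by
      simp only [LinearMap.comp_apply, LinearMap.sub_apply, LinearMap.id_apply,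
        LinearMap.smul_apply]
      exact D.b2 _) z hz
  simp only [LinearMap.comp_apply, LinearMap.sub_apply, LinearMap.id_apply,
    LinearMap.smul_apply] at this
  exact sub_eq_zero.1 this

theorem LocData.step3 (D : LocData σ φ δ U Ui K1 K2 m q) (z : H) (hz : gs δ m • z = 0) :
    φ (σ z - z) = ((q : R) * Ui) • (σ z - z) := by
  have := D.eq_zero ((φ - ((q : R) * Ui) • LinearMap.id) ∘ₗ (σ - LinearMap.id))
    (fun z _ => by
      simp only [LinearMap.comp_apply, LinearMap.sub_apply, LinearMap.id_apply,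
        LinearMap.smul_apply]
      exact K1.sub_mem (D.K1φ _ (D.b1 z)) (K1.smul_mem _ (D.b1 z)))
    (fun z hz => by
      simp only [LinearMap.comp_apply, LinearMap.sub_apply, LinearMap.id_apply,
        LinearMap.smul_apply]
      refine D.b4 _ ?_
      rw [smul_sub, ← map_smul, hz, map_zero, sub_zero]) z hz
  simp only [LinearMap.comp_apply, LinearMap.sub_apply, LinearMap.id_apply,
    LinearMap.smul_apply] at this
  exact sub_eq_zero.1 this

theorem LocData.step4 (D : LocData σ φ δ U Ui K1 K2 m q) (z : H) (hz : gs δ m • z = 0) (n : ℕ) :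
    (σ ^ n) z = z + gs δ n • (σ z - z) := by
  induction n with
  | zero => simp [gs_zero]
  | succ n ih =>
    rw [pow_succ', Module.End.mul_apply, ih, map_add, map_smul, D.step1 z hz, gs_succ, add_smul,
      one_smul, mul_smul, smul_comm (gs δ n) δ]
    abel

theorem LocData.step5 (D : LocData σ φ δ U Ui K1 K2 m q) {c : ℕ} (hq : q = c * m + 1)
    (z : H) (hz : gs δ m • z = 0) : φ (σ z) = σ (φ z) := by
  have hφz : gs δ m • φ z = 0 := by rw [← map_smul, hz, map_zero]
  rw [D.comm, D.step4 (φ z) hφz, hq, gs_mul_add_one D.δ_pow, add_smul, one_smul, mul_smul, smul_sub,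
    ← map_smul, hφz, map_zero, sub_zero, smul_zero, zero_add]
  abel

/-- **KEY** (report 417, (2d)). -/
theorem key (D : LocData σ φ δ U Ui K1 K2 m q) (ε s : R) (hε : ε * ε = 1)
    (hs : U = ε + (δ - 1) * s) {c : ℕ} (hq : q = c * m + 1) (hm : Odd m)
    (z : H) (hx : (δ - 1) • z = 0) (hz : gs δ m • z = 0) :
    φ z - ε • z = - ((s * (1 + q * ε * Ui)) • (σ z - z)) := by
  set e1 : R := s * (1 + q * ε * Ui) with he1
  set e : R := e1 - ε * c * kap δ m with he
  -- `E = x e - ε c Nm`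
  have hE : U - q * Ui = (δ - 1) * e - ε * c * gs δ m := by
    have h1 : (q : R) = c * m + 1 := by rw [hq]; push_cast; ring
    have h2 := natCast_eq δ m
    have h3 : U - q * Ui + ε * (q - 1) = (δ - 1) * e1 := by
      rw [he1]
      linear_combination (1 + q * ε * Ui) * hs - q * ε * D.U_inv + q * Ui * hε
    rw [he]
    linear_combination h3 - ε * h1 - ε * c * h2
  -- `Θ = 0` on `Jχ`
  have hΘ : ∀ z, gs δ m • z = 0 → (φ z - U • z) + e • (σ z - z) = 0 := by
    intro z hz
    have := D.eq_zero' ((φ - U • LinearMap.id) + e • (σ - LinearMap.id)) (fun z hz => by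
      simp only [LinearMap.add_apply, LinearMap.sub_apply, LinearMap.id_apply,
        LinearMap.smul_apply]
      have hP : gs δ m • (σ z - z) = 0 := by rw [smul_sub, ← map_smul, hz, map_zero, sub_zero]
      -- `x Ψ = P Ψ`
      have a1 : (δ - 1) • (φ z - U • z) = σ (φ z - U • z) - (φ z - U • z) := by
        rw [D.step2 z hz, sub_smul, one_smul]
      -- `P Ψ = Ψ P`
      have a2 : σ (φ z - U • z) - (φ z - U • z) = φ (σ z - z) - U • (σ z - z) := by
        rw [map_sub, map_sub, map_smul, D.step5 hq z hz, smul_sub]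
        abel
      -- `Ψ P = - E P`
      have a3 : φ (σ z - z) - U • (σ z - z) = - ((U - q * Ui) • (σ z - z)) := by
        rw [D.step3 z hz, sub_smul]
        abel
      rw [smul_add, a1, a2, a3, hE, sub_smul, mul_smul (ε * c), hP, smul_zero, sub_zero, smul_smul]
      abel) z hz
    simpa only [LinearMap.add_apply, LinearMap.sub_apply, LinearMap.id_apply,
      LinearMap.smul_apply] using this
  have h0 := hΘ z hz
  have hδz : δ • z = z := by rwa [sub_smul, one_smul, sub_eq_zero] at hx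
  have hUz : U • z = ε • z := by rw [hs, add_smul, mul_comm, mul_smul, hx, smul_zero, add_zero]
  -- `w = σ z - z` is fixed by `δ` and killed by `m`
  set w := σ z - z with hw
  have hδw : δ • w = w := by rw [hw, smul_sub, ← map_smul, hδz]
  have hNw : gs δ m • w = 0 := by rw [hw, smul_sub, ← map_smul, hz, map_zero, sub_zero]
  have hmw : m • w = 0 := by rw [← gs_smul_of_fixed hδw, hNw]
  have hkap : kap δ m • w = 0 := by
    unfold kap
    rw [neg_smul, Finset.sum_smul, neg_eq_zero]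
    have : ∀ i ∈ Finset.range m, gs δ i • w = i • w := fun i _ => gs_smul_of_fixed hδw i
    rw [Finset.sum_congr rfl this, ← Finset.sum_smul, Finset.sum_range_id]
    obtain ⟨j, hj⟩ := hm
    have h2 : m * (m - 1) / 2 = j * m := by
      rw [hj]
      have : (2 * j + 1) * (2 * j + 1 - 1) = 2 * (j * (2 * j + 1)) := by
        rw [Nat.add_sub_cancel]
        ring
      rw [this, Nat.mul_div_cancel_left _ (by norm_num)]
    rw [h2, mul_smul, hmw, smul_zero]
  have hew : e • w = e1 • w := by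
    rw [he, sub_smul, mul_smul (ε * c) (kap δ m) w, hkap, smul_zero, sub_zero]
  rw [hUz, hew] at h0
  exact eq_neg_of_add_eq_zero_left h0

end Key

end Fermat.Agent.S43.MPD.Loc
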